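import Fermat.Agent.LT.TF.Height.Local

/-!
The height of a row at a point, its invariance, and the large heights met by a twisted term.
-/

set_option autoImplicit false
set_option linter.style.haveILetI false
set_option linter.unusedSectionVars false
set_option synthInstance.maxHeartbeats 200000

noncomputable section

namespace FLTAgent.LT.Ht

open NumberField IsDedekindDomain Matrix Filter MeasureTheory
open scoped ComplexConjugate

variable {F : Type*} [Field F] [NumberField F] {N : ℕ}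

local notation "HS" => HeightOneSpectrum (𝓞 F)
local notation "M2F" => Matrix (Fin 2) (Fin 2) F

/-- The part of the height at the finite places. -/
def finHt (r : Fin 2 → F) (g : GF F) : ℝ := ∏ᶠ v : HS, locHt v r g

/-- The part of the height at infinity. -/
def infHt (r : Fin 2 → F) (x : Xinf F) : ℝ :=
  ∏ w : InfinitePlace F, ((qf (w.embedding (r 0)) (w.embedding (r 1)) (x w))⁻¹) ^ w.mult

/-- The height of a row at a point. -/
def ht (r : Fin 2 → F) (p : Pt F N) : ℝ := finHt r p.2.out * infHt r p.1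

lemma finite_mulSupport_locHt {r : Fin 2 → F} (hr : r ≠ 0) (g : GF F) :
    (fun v : HS => locHt v r g).HasFiniteMulSupport :=
  Filter.eventually_cofinite.1 (eventually_locHt hr g)

lemma finHt_pos {r : Fin 2 → F} (hr : r ≠ 0) (g : GF F) : 0 < finHt r g :=
  finprod_induction (0 < ·) one_pos (fun _ _ => mul_pos) fun v => locHt_pos v hr g

lemma finHt_mul_of_mem_UZ (r : Fin 2 → F) {u : GF F} (hu : u ∈ UZ F N) (g : GF F) :
    finHt r (g * u) = finHt r g :=
  finprod_congr fun v => locHt_mul_of_mem_UZ v r hu g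

lemma exists_row_ne (r : Fin 2 → F) (hr : r ≠ 0) : r 0 ≠ 0 ∨ r 1 ≠ 0 := by
  obtain ⟨i, hi⟩ := Function.ne_iff.1 hr
  fin_cases i
  · exact Or.inl hi
  · exact Or.inr hi

lemma qf_row_pos {r : Fin 2 → F} (hr : r ≠ 0) (w : InfinitePlace F) (x : H3) :
    0 < qf (w.embedding (r 0)) (w.embedding (r 1)) x :=
  qf_pos ((exists_row_ne r hr).imp (map_ne_zero _).2 (map_ne_zero _).2) x

lemma infHt_pos {r : Fin 2 → F} (hr : r ≠ 0) (x : Xinf F) : 0 < infHt r x :=
  Finset.prod_pos fun w _ => pow_pos (inv_pos.2 (qf_row_pos hr w _)) _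

lemma ht_pos {r : Fin 2 → F} (hr : r ≠ 0) (p : Pt F N) : 0 < ht r p :=
  mul_pos (finHt_pos hr _) (infHt_pos hr _)

lemma vecMul_ne_zero {r : Fin 2 → F} (hr : r ≠ 0) (γ : GL (Fin 2) F) : r ᵥ* (γ : M2F) ≠ 0 :=
  fun h => hr (by
    have h1 := congrArg (fun x => x ᵥ* ((γ⁻¹ : GL (Fin 2) F) : M2F)) h
    rw [Matrix.vecMul_vecMul, ← Units.val_mul, mul_inv_cancel, Units.val_one, Matrix.vecMul_one,
      Matrix.zero_vecMul] at h1
    exact h1)

lemma finHt_toFin_mul {r : Fin 2 → F} (hr : r ≠ 0) (γ : GL (Fin 2) F) (g : GF F) :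
    finHt r (toFin γ * g) =
      (∏ w : InfinitePlace F, w (GeneralLinearGroup.det γ : F) ^ w.mult)⁻¹ *
        finHt (r ᵥ* (γ : M2F)) g := by
  rw [finHt, finHt, finprod_congr fun v => locHt_toFin_mul v r γ g, finprod_mul_distrib,
    finprod_norm_algebraMap (GeneralLinearGroup.det γ).ne_zero]
  · exact Filter.eventually_cofinite.1 (eventually_norm_eq_one (GeneralLinearGroup.det γ).ne_zero)
  · exact finite_mulSupport_locHt (vecMul_ne_zero hr γ) g

lemma infHt_actInf (r : Fin 2 → F) (γ : GL (Fin 2) F) (x : Xinf F) :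
    infHt r (actInf γ x) = (∏ w : InfinitePlace F, w (GeneralLinearGroup.det γ : F) ^ w.mult) *
      infHt (r ᵥ* (γ : M2F)) x := by
  rw [infHt, infHt, ← Finset.prod_mul_distrib]
  refine Finset.prod_congr rfl fun w _ => ?_
  rw [← mul_pow]
  congr 1
  have h := qf_act (GeneralLinearGroup.map w.embedding γ) (fun i => w.embedding (r i)) (x w)
  have hd : ‖(GeneralLinearGroup.det (GeneralLinearGroup.map w.embedding γ) : ℂ)‖ =
      w (GeneralLinearGroup.det γ : F) := by
    rw [← InfinitePlace.norm_embedding_eq, GeneralLinearGroup.val_det_apply,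
      GeneralLinearGroup.val_det_apply]
    simp [Matrix.det_fin_two]
  have he : ∀ j, ((fun i => w.embedding (r i)) ᵥ*
      (GeneralLinearGroup.map w.embedding γ : Matrix (Fin 2) (Fin 2) ℂ)) j =
        w.embedding ((r ᵥ* (γ : M2F)) j) := fun j => by
    simp [Matrix.vecMul, dotProduct, Fin.sum_univ_two]
  rw [hd, he, he] at h
  rw [← h, mul_inv, mul_inv_cancel_left₀]
  · rfl
  exact (InfinitePlace.pos_iff.2 (GeneralLinearGroup.det γ).ne_zero).ne'

/-- Translating the point changes the row. -/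
lemma ht_smulPt {r : Fin 2 → F} (hr : r ≠ 0) (γ : GL (Fin 2) F) (p : Pt F N) :
    ht r (smulPt γ p) = ht (r ᵥ* (γ : M2F)) p := by
  obtain ⟨u, hu, e⟩ := toFin_smul_out γ p.2
  rw [ht, ht, smul_pt_apply, e, finHt_mul_of_mem_UZ r hu, finHt_toFin_mul hr, infHt_actInf]
  have h0 : (0 : ℝ) < ∏ w : InfinitePlace F, w (GeneralLinearGroup.det γ : F) ^ w.mult :=
    Finset.prod_pos fun w _ =>
      pow_pos (InfinitePlace.pos_iff.2 (GeneralLinearGroup.det γ).ne_zero) _
  field_simp

lemma smul_row_ne_zero {c : F} (hc : c ≠ 0) {r : Fin 2 → F} (hr : r ≠ 0) : c • r ≠ 0 :=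
  smul_ne_zero hc hr

/-- The height depends only on the line of the row. -/
lemma ht_scale {c : F} (hc : c ≠ 0) {r : Fin 2 → F} (hr : r ≠ 0) (p : Pt F N) :
    ht (c • r) p = ht r p := by
  have hP : (0 : ℝ) < ∏ w : InfinitePlace F, w c ^ w.mult :=
    Finset.prod_pos fun w _ => pow_pos (InfinitePlace.pos_iff.2 hc) _
  have hfin : finHt (c • r) p.2.out =
      finHt r p.2.out * (∏ w : InfinitePlace F, w c ^ w.mult) ^ 2 := by
    have hs : (fun v : HS => ‖(algebraMap F (Af F) c) v‖).HasFiniteMulSupport :=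
      Filter.eventually_cofinite.1 (eventually_norm_eq_one hc)
    rw [finHt, finHt, finprod_congr fun v => (locHt_smul_row v r p.2.out).trans
      (div_eq_mul_inv _ _), finprod_mul_distrib (finite_mulSupport_locHt hr _),
      finprod_inv_distrib, ← finprod_pow, finprod_norm_algebraMap hc, inv_pow, inv_inv]
    · exact hs
    · exact (hs.pow 2).inv
  have hinf : infHt (c • r) p.1 = infHt r p.1 / (∏ w : InfinitePlace F, w c ^ w.mult) ^ 2 := by
    rw [infHt, infHt, ← Finset.prod_pow, ← Finset.prod_div_distrib]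
    refine Finset.prod_congr rfl fun w _ => ?_
    rw [Pi.smul_apply, Pi.smul_apply, smul_eq_mul, smul_eq_mul, map_mul, map_mul, qf_smul,
      Complex.normSq_eq_norm_sq, InfinitePlace.norm_embedding_eq, ← pow_mul, mul_comm w.mult,
      pow_mul, ← div_pow, mul_inv, mul_comm, ← div_eq_mul_inv]
  rw [ht, ht, hfin, hinf]
  field_simp

/-- Two independent rows are not both high. -/
lemma ht_mul_le_one {r r' : Fin 2 → F} (hd : r 0 * r' 1 - r 1 * r' 0 ≠ 0) (p : Pt F N) :
    ht r p * ht r' p ≤ 1 := by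
  have hr : r ≠ 0 := fun h => hd (by simp [h])
  have hr' : r' ≠ 0 := fun h => hd (by simp [h])
  set d := r 0 * r' 1 - r 1 * r' 0
  set P := ∏ w : InfinitePlace F, w d ^ w.mult
  have hP : 0 < P := Finset.prod_pos fun w _ => pow_pos (InfinitePlace.pos_iff.2 hd) _
  have hf : finHt r p.2.out * finHt r' p.2.out ≤ P ^ 2 := by
    have hs : (fun v : HS => ‖(algebraMap F (Af F) d) v‖).HasFiniteMulSupport :=
      Filter.eventually_cofinite.1 (eventually_norm_eq_one hd)
    have e : P ^ 2 = ∏ᶠ v : HS, (‖(algebraMap F (Af F) d) v‖ ^ 2)⁻¹ := by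
      rw [finprod_inv_distrib, ← finprod_pow hs, finprod_norm_algebraMap hd, inv_pow, inv_inv]
    rw [e, finHt, finHt, ← finprod_mul_distrib (finite_mulSupport_locHt hr _)
      (finite_mulSupport_locHt hr' _)]
    refine finprod_le_finprod ((finite_mulSupport_locHt hr _).mul (finite_mulSupport_locHt hr' _))
      (fun v => (mul_pos (locHt_pos v hr _) (locHt_pos v hr' _)).le) (hs.pow 2).inv fun v => ?_
    have hn : 0 < ‖(algebraMap F (Af F) d) v‖ := by
      rw [norm_algebraMap]; exact FinitePlace.pos_iff.2 hd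
    rw [← one_div, le_div_iff₀ (pow_pos hn 2), mul_comm]
    exact locHt_mul_le hr hr' _
  have hi : infHt r p.1 * infHt r' p.1 ≤ (P ^ 2)⁻¹ := by
    rw [infHt, infHt, ← Finset.prod_mul_distrib, ← Finset.prod_pow, ← Finset.prod_inv_distrib]
    refine Finset.prod_le_prod (fun w _ => ?_) fun w _ => ?_
    · have := qf_row_pos hr w (p.1 w)
      have := qf_row_pos hr' w (p.1 w)
      positivity
    · rw [← mul_pow, ← mul_inv]
      rw [show ((w d ^ w.mult) ^ 2)⁻¹ = ((w d ^ 2)⁻¹) ^ w.mult by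
        rw [inv_pow, ← pow_mul, ← pow_mul, mul_comm]]
      have h0 : 0 < w d := InfinitePlace.pos_iff.2 hd
      refine pow_le_pow_left₀ (inv_nonneg.2 (mul_nonneg (qf_row_pos hr w _).le
        (qf_row_pos hr' w _).le)) (inv_anti₀ (pow_pos h0 2) ?_) _
      have h := sq_det_le_qf_mul (w.embedding (r 0)) (w.embedding (r 1)) (w.embedding (r' 0))
        (w.embedding (r' 1)) (p.1 w)
      rwa [← map_mul, ← map_mul, ← map_sub, Complex.normSq_eq_norm_sq,
        InfinitePlace.norm_embedding_eq] at h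
  calc ht r p * ht r' p
      = (finHt r p.2.out * finHt r' p.2.out) * (infHt r p.1 * infHt r' p.1) := by rw [ht, ht]; ring
    _ ≤ P ^ 2 * (P ^ 2)⁻¹ := mul_le_mul hf hi (mul_pos (infHt_pos hr _) (infHt_pos hr' _)).le
        (sq_nonneg _)
    _ = 1 := mul_inv_cancel₀ (pow_pos hP 2).ne'

/-- The permutation of the infinite places. -/
def infPerm (τ : F →+* F) : Equiv.Perm (InfinitePlace F) where
  toFun w := w.comap (endoEquiv τ : F →+* F)
  invFun w := w.comap ((endoEquiv τ).symm : F →+* F)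
  left_inv w := InfinitePlace.ext _ _ fun x => by simp [InfinitePlace.comap_apply]
  right_inv w := InfinitePlace.ext _ _ fun x => by simp [InfinitePlace.comap_apply]

lemma infPerm_apply (τ : F →+* F) (w : InfinitePlace F) : infPerm τ w = w.comap τ := rfl

lemma mult_comap (τ : F →+* F) (w : InfinitePlace F) : (w.comap τ).mult = w.mult := by
  have h : (w.comap τ).IsReal ↔ w.IsReal := InfinitePlace.isReal_comap_iff (endoEquiv τ) (w := w)
  unfold InfinitePlace.mult
  split_ifs <;> simp_all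

lemma row_map_ne_zero (τ : F →+* F) {r : Fin 2 → F} (hr : r ≠ 0) : (fun i => τ (r i)) ≠ 0 :=
  fun h => hr (funext fun i => (map_eq_zero τ).1 (congrFun h i))

/-- The height under the automorphism. -/
lemma ht_ptMap (τ : F →+* F) (r : Fin 2 → F) (p : Pt F N) :
    ht (fun i => τ (r i)) (ptMap (N' := N) τ p) = ht r p := by
  obtain ⟨u, hu, e⟩ : ∃ u ∈ UZ F N, (ptMap (N' := N) τ p).2.out = gfMap τ p.2.out * u :=
    ⟨(gfMap τ p.2.out)⁻¹ * (ptMap (N' := N) τ p).2.out, QuotientGroup.eq.1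
      (by rw [QuotientGroup.out_eq']; rfl), by group⟩
  rw [ht, ht, e, finHt_mul_of_mem_UZ _ hu]
  congr 1
  · rw [finHt, finprod_congr fun v => locHt_afMap τ v r p.2.out, finHt]
    exact finprod_comp_equiv (placePerm τ) (f := fun v => locHt v r p.2.out)
  · rw [infHt, infHt]
    refine Fintype.prod_equiv (infPerm τ) _ _ fun w => ?_
    rw [infPerm_apply, mult_comap]
    congr 2
    show qf _ _ (infMap τ p.1 w) = _
    simp only [infMap]
    split_ifs with h
    · rw [h]; rfl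
    · have h' := (embedding_comap_cases τ w).resolve_left h
      have h1 : ∀ y : F, w.embedding (τ y) = conj ((w.comap τ).embedding y) := fun y =>
        (congrArg (fun φ : F →+* ℂ => φ y) h').trans rfl
      rw [h1, h1, qf_conj]

lemma eq_smul_of_det_eq_zero {r r' : Fin 2 → F} (hr : r ≠ 0)
    (h : r 0 * r' 1 - r 1 * r' 0 = 0) : ∃ c : F, r' = c • r := by
  rcases exists_row_ne r hr with h0 | h1
  · refine ⟨r' 0 / r 0, funext fun i => ?_⟩
    fin_cases i
    · simp [h0]
    · show r' 1 = r' 0 / r 0 * r 1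
      field_simp
      linear_combination h
  · refine ⟨r' 1 / r 1, funext fun i => ?_⟩
    fin_cases i
    · show r' 0 = r' 1 / r 1 * r 0
      field_simp
      linear_combination -h
    · simp [h1]

/-- A bound for the change of the finite height. -/
lemma exists_finHt_le (h : GF F) :
    ∃ C, 0 ≤ C ∧ ∀ r : Fin 2 → F, r ≠ 0 → ∀ g, finHt r g ≤ C * finHt r (g * h) := by
  refine ⟨∏ᶠ v : HS, max 1 (locBound v h), finprod_nonneg fun v => zero_le_one.trans
    (le_max_left _ _), fun r hr g => ?_⟩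
  have hb : (fun v : HS => max 1 (locBound v h)).HasFiniteMulSupport :=
    Filter.eventually_cofinite.1 ((eventually_locBound_le_one h).mono fun v hv => max_eq_left hv)
  rw [finHt, finHt, ← finprod_mul_distrib hb (finite_mulSupport_locHt hr _)]
  exact finprod_le_finprod (finite_mulSupport_locHt hr g) (fun v => (locHt_pos v hr g).le)
    (hb.mul (finite_mulSupport_locHt hr _)) fun v => (locHt_le_mul v hr g h).trans
      (mul_le_mul_of_nonneg_right (le_max_right _ _) (locHt_pos v hr _).le)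

lemma exists_radius {t : Test F} (ht : t.Ok N) :
    ∃ R, ∀ x, t.inf x ≠ 0 → ∀ w, |x w| ≤ R := by
  obtain ⟨R, hR⟩ := ht.compact.isBounded.subset_closedBall 0
  refine ⟨R, fun x hx w => ?_⟩
  have h := hR (subset_tsupport t.inf hx)
  rw [mem_closedBall_zero_iff] at h
  exact (norm_le_pi_norm x w).trans h

lemma coshDist_le_of_hdist {p q : H3} {R : ℝ} (h : |hdist p q| ≤ R) :
    coshDist p q ≤ Real.cosh R := by
  rw [← Real.cosh_arcosh (Hyp.one_le_coshDist p q)]
  exact Real.cosh_le_cosh.2 (h.trans (le_abs_self R))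

/-- Where a term does not vanish: the translated point is near, in a finite set of cosets. -/
lemma exists_near {t : Test F} (ht : t.Ok N) (τ : F →+* F) :
    ∃ (S : Set (Cos F N)) (K : ℝ), S.Finite ∧ 1 ≤ K ∧ ∀ (γ : GL (Fin 2) F) (p : Pt F N),
      term τ t γ p ≠ 0 →
        (∃ s ∈ S, (smulPt γ (ptMap (N' := N) τ p)).2 = QuotientGroup.mk (p.2.out * s.out)) ∧
          ∀ w, coshDist (p.1 w) ((smulPt γ (ptMap (N' := N) τ p)).1 w) ≤ K := by
  obtain ⟨R, hR⟩ := exists_radius ht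
  refine ⟨_, Real.cosh R, ht.finite, Real.one_le_cosh R, fun γ p h => ⟨?_, fun w => ?_⟩⟩
  · obtain ⟨h1, -⟩ := ne_zero_and_ne_zero_of_mul h
    refine ⟨_, ⟨_, h1, rfl⟩, ?_⟩
    obtain ⟨u, hu, e⟩ : ∃ u ∈ UZ F N,
        (QuotientGroup.mk (p.2.out⁻¹ * toFin γ * gfMap τ p.2.out) : Cos F N).out =
          p.2.out⁻¹ * toFin γ * gfMap τ p.2.out * u :=
      ⟨_, QuotientGroup.eq.1 (QuotientGroup.out_eq' _).symm, (mul_inv_cancel_left _ _).symm⟩
    rw [e, ← mul_assoc, QuotientGroup.mk_mul_of_mem _ hu, ← mul_assoc, ← mul_assoc,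
      mul_inv_cancel, one_mul]
    exact MulAction.Quotient.smul_mk _ _ _
  · obtain ⟨-, h2⟩ := ne_zero_and_ne_zero_of_mul h
    exact coshDist_le_of_hdist (hR _ h2 w)

/-- A nonvanishing term links the heights of a row and of its image. -/
lemma exists_ht_term_le {t : Test F} (ht' : t.Ok N) (τ : F →+* F) :
    ∃ C, 1 ≤ C ∧ ∀ r : Fin 2 → F, r ≠ 0 → ∀ (γ : GL (Fin 2) F) (p : Pt F N),
      term τ t γ p ≠ 0 → ht r p ≤ C * ht (r ᵥ* (γ : M2F)) (ptMap (N' := N) τ p) := by
  obtain ⟨S, K, hS, hK, hnear⟩ := exists_near ht' τ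
  choose Cf hCf0 hCf using fun s : Cos F N => exists_finHt_le s.out
  set Ki := ∏ w : InfinitePlace F, (2 * K) ^ w.mult
  have hKi : 0 < Ki := Finset.prod_pos fun w _ => by positivity
  refine ⟨max 1 ((∑ s ∈ hS.toFinset, Cf s) * Ki), le_max_left _ _, fun r hr γ p h => ?_⟩
  obtain ⟨⟨s, hs, e2⟩, hd⟩ := hnear γ p h
  rw [← ht_smulPt hr]
  set q := smulPt γ (ptMap (N' := N) τ p)
  obtain ⟨u, hu, e⟩ : ∃ u ∈ UZ F N, q.2.out = p.2.out * s.out * u :=
    ⟨_, QuotientGroup.eq.1 (e2.symm.trans (QuotientGroup.out_eq' _).symm),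
      (mul_inv_cancel_left _ _).symm⟩
  have hf : finHt r p.2.out ≤ (∑ s ∈ hS.toFinset, Cf s) * finHt r q.2.out := by
    rw [e, finHt_mul_of_mem_UZ r hu]
    exact (hCf s r hr _).trans (mul_le_mul_of_nonneg_right
      (Finset.single_le_sum (fun i _ => hCf0 i) (hS.mem_toFinset.2 hs)) (finHt_pos hr _).le)
  have hi : infHt r p.1 ≤ Ki * infHt r q.1 := by
    rw [infHt, infHt, ← Finset.prod_mul_distrib]
    refine Finset.prod_le_prod (fun w _ => (pow_pos (inv_pos.2 (qf_row_pos hr w _)) _).le)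
      fun w _ => ?_
    rw [← mul_pow]
    refine pow_le_pow_left₀ (inv_nonneg.2 (qf_row_pos hr w _).le) ?_ _
    rw [← div_eq_mul_inv, inv_eq_one_div, div_le_div_iff₀ (qf_row_pos hr w _)
      (qf_row_pos hr w _), one_mul]
    exact (qf_le_coshDist _ _ (p.1 w) (q.1 w)).trans
      (mul_le_mul_of_nonneg_right (by linarith [hd w]) (qf_row_pos hr w _).le)
  calc ht r p ≤ ((∑ s ∈ hS.toFinset, Cf s) * finHt r q.2.out) * (Ki * infHt r q.1) :=
        mul_le_mul hf hi (infHt_pos hr _).le (mul_nonneg (Finset.sum_nonneg fun i _ => hCf0 i)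
          (finHt_pos hr _).le)
    _ = (∑ s ∈ hS.toFinset, Cf s) * Ki * ht r q := by rw [ht]; ring
    _ ≤ _ := mul_le_mul_of_nonneg_right (le_max_right _ _) (ht_pos hr _).le

/-- A high row goes to its conjugate. -/
lemma exists_high_row {t : Test F} (ht' : t.Ok N) (τ : F →+* F) :
    ∃ T₀, 1 ≤ T₀ ∧ ∀ r : Fin 2 → F, r ≠ 0 → ∀ (γ : GL (Fin 2) F) (p : Pt F N),
      term τ t γ p ≠ 0 → T₀ < ht r p → ∃ μ : F, r ᵥ* (γ : M2F) = μ • fun i => τ (r i) := by
  obtain ⟨C, hC, hle⟩ := exists_ht_term_le ht' τ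
  refine ⟨C, hC, fun r hr γ p h hT => ?_⟩
  set r' : Fin 2 → F := fun i => (endoEquiv τ).symm ((r ᵥ* (γ : M2F)) i)
  have e : (fun i => τ (r' i)) = r ᵥ* (γ : M2F) :=
    funext fun i => (endoEquiv τ).apply_symm_apply _
  have h1 := hle r hr γ p h
  rw [← e, ht_ptMap] at h1
  have hd : r 0 * r' 1 - r 1 * r' 0 = 0 := by
    by_contra hd
    have h2 := ht_mul_le_one hd p
    have h3 : ht r p * ht r p ≤ C := by
      calc ht r p * ht r p ≤ ht r p * (C * ht r' p) :=
            mul_le_mul_of_nonneg_left h1 (ht_pos hr p).le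
        _ = C * (ht r p * ht r' p) := by ring
        _ ≤ C := mul_le_of_le_one_right (zero_le_one.trans hC) h2
    nlinarith [ht_pos hr p]
  obtain ⟨c, hc⟩ := eq_smul_of_det_eq_zero hr hd
  exact ⟨τ c, by rw [← e, hc]; ext i; simp⟩

lemma vecMul_twNorm {τ : F →+* F} {r : Fin 2 → F} {γ : GL (Fin 2) F} {μ : F}
    (h : r ᵥ* (γ : M2F) = μ • fun i => τ (r i)) :
    ∀ m : ℕ, ∃ c : F, r ᵥ* (twNorm τ m γ : M2F) = c • fun i => (⇑τ)^[m] (r i)
  | 0 => ⟨1, by simp [twNorm]⟩
  | m + 1 => by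
    obtain ⟨c, hc⟩ := vecMul_twNorm h m
    refine ⟨μ * τ c, ?_⟩
    have h2 : (fun i => τ (r i)) ᵥ* ((GeneralLinearGroup.map τ (twNorm τ m γ) : GL (Fin 2) F) : M2F) =
        fun i => τ ((r ᵥ* (twNorm τ m γ : M2F)) i) := by
      funext i
      simp [Matrix.vecMul, dotProduct, Fin.sum_univ_two]
    rw [twNorm, Units.val_mul, ← Matrix.vecMul_vecMul, h, Matrix.smul_vecMul, h2, hc]
    funext i
    simp [Function.iterate_succ_apply', mul_assoc]

/-- A high row is an eigenrow of the norm. -/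
lemma exists_high_eigen {t : Test F} (ht' : t.Ok N) (τ : F →+* F) {n : ℕ}
    (hτ : ∀ x, (⇑τ)^[n] x = x) :
    ∃ T₀, 1 ≤ T₀ ∧ ∀ r : Fin 2 → F, r ≠ 0 → ∀ (γ : GL (Fin 2) F) (p : Pt F N),
      term τ t γ p ≠ 0 → T₀ < ht r p →
        ∃ c : F, r ᵥ* (twNorm τ n γ : M2F) = c • r := by
  obtain ⟨T₀, hT₀, h⟩ := exists_high_row ht' τ
  refine ⟨T₀, hT₀, fun r hr γ p hp hlt => ?_⟩
  obtain ⟨μ, hμ⟩ := h r hr γ p hp hlt
  obtain ⟨c, hc⟩ := vecMul_twNorm hμ n
  exact ⟨c, by rw [hc]; simp [hτ]⟩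

/-- An elliptic element has no eigenrow. -/
lemma not_ellElem_of_eigen {δ : GL (Fin 2) F} {r : Fin 2 → F} (hr : r ≠ 0) {c : F}
    (h : r ᵥ* (δ : M2F) = c • r) : ¬ EllElem δ := fun hE => by
  have h0 := congrFun h 0
  have h1 := congrFun h 1
  simp only [Matrix.vecMul, dotProduct, Fin.sum_univ_two, Pi.smul_apply, smul_eq_mul] at h0 h1
  refine hE.2 ⟨2 * c - (δ : M2F).trace, ?_⟩
  rw [Matrix.trace_fin_two, Matrix.det_fin_two]
  have key : (c - (δ : M2F) 0 0) * (c - (δ : M2F) 1 1) = (δ : M2F) 0 1 * (δ : M2F) 1 0 := by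
    rcases exists_row_ne r hr with h' | h'
    · refine mul_left_cancel₀ h' ?_
      linear_combination (-(c - (δ : M2F) 1 1)) * h0 + (-(δ : M2F) 1 0) * h1
    · refine mul_left_cancel₀ h' ?_
      linear_combination (-(δ : M2F) 0 1) * h0 + (-(c - (δ : M2F) 0 0)) * h1
  linear_combination -4 * key

end FLTAgent.LT.Ht
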