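import Fermat.Agent.LT.TF.Galois
import Fermat.Agent.LT.Red.Proper
import Mathlib.NumberTheory.NumberField.ProductFormula

/-!
Local heights of a row at a finite place and at an infinite place.
-/

set_option autoImplicit false
set_option linter.style.haveILetI false
set_option linter.unusedSectionVars false
set_option synthInstance.maxHeartbeats 200000

noncomputable section

namespace FLTAgent.LT.Ht

open NumberField IsDedekindDomain Matrix Filter
open scoped ComplexConjugate

variable {F : Type*} [Field F] [NumberField F]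

local notation "HS" => HeightOneSpectrum (𝓞 F)
local notation "M2" => Matrix (Fin 2) (Fin 2) (Af F)

/-! ### Norms at a finite place -/

lemma norm_add_le_max {v : HS} (x y : v.adicCompletion F) : ‖x + y‖ ≤ max ‖x‖ ‖y‖ := by
  rcases le_total ‖x‖ ‖y‖ with h | h
  · rw [max_eq_right h, norm_le_norm_iff_valued]
    exact Valued.v.map_add_le (norm_le_norm_iff_valued.1 h) le_rfl
  · rw [max_eq_left h, norm_le_norm_iff_valued]
    exact Valued.v.map_add_le le_rfl (norm_le_norm_iff_valued.1 h)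

lemma norm_le_one_iff_valued {v : HS} {x : v.adicCompletion F} : ‖x‖ ≤ 1 ↔ Valued.v x ≤ 1 := by
  simpa using norm_le_norm_iff_valued (x := x) (y := (1 : v.adicCompletion F))

/-- Almost all components of an adele are integral. -/
lemma eventually_norm_le_one (a : Af F) : ∀ᶠ v : HS in cofinite, ‖a v‖ ≤ 1 :=
  a.2.mono fun _ hv => norm_le_one_iff_valued.2 hv

lemma norm_algebraMap (x : F) (v : HS) :
    ‖(algebraMap F (Af F) x) v‖ = FinitePlace.mk v x := by
  rw [FinitePlace.mk_apply, FinitePlace.norm_embedding', FinitePlace.norm_def,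
    Red.valued_algebraMap]

/-- A nonzero element is a unit at almost all places. -/
lemma eventually_norm_eq_one {x : F} (hx : x ≠ 0) :
    ∀ᶠ v : HS in cofinite, ‖(algebraMap F (Af F) x) v‖ = 1 := by
  filter_upwards [eventually_norm_le_one (algebraMap F (Af F) x),
    eventually_norm_le_one (algebraMap F (Af F) x⁻¹)] with v h1 h2
  refine le_antisymm h1 ?_
  rw [norm_algebraMap] at h1 h2 ⊢
  rw [map_inv₀] at h2
  exact (inv_le_one₀ (FinitePlace.pos_iff.2 hx)).1 h2

/-- The product formula over the prime ideals. -/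
lemma finprod_norm_algebraMap {x : F} (hx : x ≠ 0) :
    (∏ᶠ v : HS, ‖(algebraMap F (Af F) x) v‖) = (∏ w : InfinitePlace F, w x ^ w.mult)⁻¹ := by
  simp only [norm_algebraMap]
  refine eq_inv_of_mul_eq_one_right ?_
  rw [show (fun v : HS => FinitePlace.mk v x) = fun v =>
    (fun w : FinitePlace F => w x) (FinitePlace.equivHeightOneSpectrum.symm v) from rfl,
    finprod_comp_equiv _ (f := fun w : FinitePlace F => w x)]
  exact prod_abs_eq_one hx

/-! ### Rows at a finite place -/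

/-- The largest norm of the entries of a row. -/
def vMax {v : HS} (x : Fin 2 → v.adicCompletion F) : ℝ := max ‖x 0‖ ‖x 1‖

/-- The largest norm of the entries of a matrix. -/
def mMax {v : HS} (A : Matrix (Fin 2) (Fin 2) (v.adicCompletion F)) : ℝ :=
  max (vMax (A 0)) (vMax (A 1))

lemma norm_le_vMax {v : HS} (x : Fin 2 → v.adicCompletion F) (i : Fin 2) : ‖x i‖ ≤ vMax x := by
  fin_cases i <;> simp [vMax]

lemma vMax_nonneg {v : HS} (x : Fin 2 → v.adicCompletion F) : 0 ≤ vMax x :=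
  (norm_nonneg _).trans (norm_le_vMax x 0)

lemma norm_le_mMax {v : HS} (A : Matrix (Fin 2) (Fin 2) (v.adicCompletion F)) (i j : Fin 2) :
    ‖A i j‖ ≤ mMax A := by
  refine (norm_le_vMax (A i) j).trans ?_
  fin_cases i <;> simp [mMax]

lemma mMax_nonneg {v : HS} (A : Matrix (Fin 2) (Fin 2) (v.adicCompletion F)) : 0 ≤ mMax A :=
  (norm_nonneg _).trans (norm_le_mMax A 0 0)

lemma vMax_eq_zero {v : HS} {x : Fin 2 → v.adicCompletion F} (h : vMax x ≤ 0) : x = 0 :=
  funext fun i => norm_le_zero_iff.1 ((norm_le_vMax x i).trans h)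

lemma vMax_vecMul_le {v : HS} (x : Fin 2 → v.adicCompletion F)
    (A : Matrix (Fin 2) (Fin 2) (v.adicCompletion F)) : vMax (x ᵥ* A) ≤ vMax x * mMax A := by
  have key : ∀ j, ‖(x ᵥ* A) j‖ ≤ vMax x * mMax A := fun j => by
    rw [Matrix.vecMul, dotProduct, Fin.sum_univ_two]
    refine (norm_add_le_max _ _).trans (max_le ?_ ?_) <;> rw [norm_mul] <;>
      exact mul_le_mul (norm_le_vMax x _) (norm_le_mMax A _ j) (norm_nonneg _) (vMax_nonneg x)
  exact max_le (key 0) (key 1)

/-- The row over the completion. -/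
def rowAt (v : HS) (r : Fin 2 → F) : Fin 2 → v.adicCompletion F :=
  fun i => (algebraMap F (Af F) (r i)) v

lemma rowAt_vecMul (v : HS) (r : Fin 2 → F) (γ : GL (Fin 2) F) :
    rowAt v (r ᵥ* (γ : Matrix (Fin 2) (Fin 2) F)) = rowAt v r ᵥ* Red.loc v (toFin γ : M2) := by
  funext j
  simp only [rowAt, Matrix.vecMul, dotProduct, Fin.sum_univ_two, map_add, map_mul]
  rfl

lemma rowAt_smul (v : HS) (c : F) (r : Fin 2 → F) :
    rowAt v (c • r) = (algebraMap F (Af F) c) v • rowAt v r := by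
  funext j
  simp only [rowAt, Pi.smul_apply, smul_eq_mul, map_mul]
  rfl

lemma rowAt_ne_zero (v : HS) {r : Fin 2 → F} (hr : r ≠ 0) : rowAt v r ≠ 0 := fun h => by
  refine hr (funext fun i => ?_)
  by_contra hi
  have h1 : ‖(algebraMap F (Af F) (r i)) v‖ = 0 := by
    rw [show (algebraMap F (Af F) (r i)) v = rowAt v r i from rfl, h]; exact norm_zero
  rw [norm_algebraMap] at h1
  exact (FinitePlace.pos_iff.2 hi).ne' h1

/-- The norm of a row through an adelic matrix. -/
def rowNorm (v : HS) (r : Fin 2 → F) (g : GF F) : ℝ := vMax (rowAt v r ᵥ* Red.loc v (g : M2))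

/-- The norm of the determinant. -/
def detNorm (v : HS) (g : GF F) : ℝ := ‖(GeneralLinearGroup.det g : Af F) v‖

/-- The local height. -/
def locHt (v : HS) (r : Fin 2 → F) (g : GF F) : ℝ := detNorm v g / rowNorm v r g ^ 2

lemma detNorm_mul (v : HS) (g h : GF F) : detNorm v (g * h) = detNorm v g * detNorm v h := by
  rw [detNorm, detNorm, detNorm, map_mul, Units.val_mul, ← norm_mul]
  rfl

lemma detNorm_pos (v : HS) (g : GF F) : 0 < detNorm v g :=
  norm_pos_iff.2 (Red.unit_apply_ne_zero _ v)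

lemma loc_inv_mul (v : HS) (g : GF F) :
    Red.loc v (g : M2) * Red.loc v ((g⁻¹ : GF F) : M2) = 1 := by
  rw [← Red.loc_mul, ← Units.val_mul, mul_inv_cancel, Units.val_one, Red.loc_one]

lemma rowNorm_pos (v : HS) {r : Fin 2 → F} (hr : r ≠ 0) (g : GF F) : 0 < rowNorm v r g := by
  by_contra h
  have h0 := vMax_eq_zero (not_lt.1 h)
  refine rowAt_ne_zero v hr ?_
  have h1 := congrArg (fun x => x ᵥ* Red.loc v ((g⁻¹ : GF F) : M2)) h0
  rw [Matrix.vecMul_vecMul, loc_inv_mul, Matrix.vecMul_one, Matrix.zero_vecMul] at h1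
  exact h1

lemma locHt_pos (v : HS) {r : Fin 2 → F} (hr : r ≠ 0) (g : GF F) : 0 < locHt v r g :=
  div_pos (detNorm_pos v g) (pow_pos (rowNorm_pos v hr g) 2)

lemma rowNorm_mul_le (v : HS) (r : Fin 2 → F) (g h : GF F) :
    rowNorm v r (g * h) ≤ rowNorm v r g * mMax (Red.loc v (h : M2)) := by
  rw [rowNorm, Units.val_mul, Red.loc_mul, ← Matrix.vecMul_vecMul]
  exact vMax_vecMul_le _ _

lemma locHt_toFin_mul (v : HS) (r : Fin 2 → F) (γ : GL (Fin 2) F) (g : GF F) :
    locHt v r (toFin γ * g) =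
      ‖(algebraMap F (Af F) (GeneralLinearGroup.det γ : F)) v‖ *
        locHt v (r ᵥ* (γ : Matrix (Fin 2) (Fin 2) F)) g := by
  rw [locHt, locHt, detNorm_mul, rowNorm, rowNorm, Units.val_mul, Red.loc_mul,
    ← Matrix.vecMul_vecMul, ← rowAt_vecMul, mul_div_assoc]
  congr 1
  rw [detNorm]
  congr 2
  simp [toFin, Matrix.det_fin_two]

lemma locHt_smul_row (v : HS) {c : F} (r : Fin 2 → F) (g : GF F) :
    locHt v (c • r) g = locHt v r g / ‖(algebraMap F (Af F) c) v‖ ^ 2 := by
  have h : rowNorm v (c • r) g = ‖(algebraMap F (Af F) c) v‖ * rowNorm v r g := by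
    rw [rowNorm, rowNorm, rowAt_smul, Matrix.smul_vecMul, vMax, vMax, Pi.smul_apply, Pi.smul_apply,
      smul_eq_mul, smul_eq_mul, norm_mul, norm_mul, mul_max_of_nonneg _ _ (norm_nonneg _)]
  rw [locHt, locHt, h, mul_pow, div_div, mul_comm (rowNorm v r g ^ 2)]

lemma mMax_loc_le_one {k : GF F} (hk : InLevel 1 k) (v : HS) : mMax (Red.loc v (k : M2)) ≤ 1 := by
  have h := fun i j => norm_le_one_iff_valued.2 (Red.entLe_of_inLevel_one hk v i j)
  exact max_le (max_le (h 0 0) (h 0 1)) (max_le (h 1 0) (h 1 1))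

lemma norm_det_le {v : HS} (A : Matrix (Fin 2) (Fin 2) (v.adicCompletion F)) :
    ‖A.det‖ ≤ vMax (A 0) * vMax (A 1) := by
  rw [Matrix.det_fin_two, sub_eq_add_neg]
  refine (norm_add_le_max _ _).trans (max_le ?_ ?_)
  · rw [norm_mul]
    exact mul_le_mul (norm_le_vMax _ 0) (norm_le_vMax _ 1) (norm_nonneg _) (vMax_nonneg _)
  · rw [norm_neg, norm_mul]
    exact mul_le_mul (norm_le_vMax _ 1) (norm_le_vMax _ 0) (norm_nonneg _) (vMax_nonneg _)

lemma detNorm_eq_det (v : HS) (g : GF F) : detNorm v g = ‖(Red.loc v (g : M2)).det‖ := by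
  rw [detNorm, GeneralLinearGroup.val_det_apply, Matrix.det_fin_two, Matrix.det_fin_two]
  rfl

lemma detNorm_eq_one {k : GF F} (hk : InLevel 1 k) (v : HS) : detNorm v k = 1 := by
  have hle : ∀ k : GF F, InLevel 1 k → detNorm v k ≤ 1 := fun k hk => by
    rw [detNorm_eq_det]
    refine (norm_det_le _).trans ?_
    have := mMax_loc_le_one hk v
    exact mul_le_one₀ ((le_max_left _ _).trans this) (vMax_nonneg _) ((le_max_right _ _).trans this)
  refine le_antisymm (hle k hk) ?_
  have h := hle k⁻¹ (Red.InLevel.inv hk)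
  have e : detNorm v k * detNorm v k⁻¹ = 1 := by
    rw [← detNorm_mul, mul_inv_cancel, detNorm, map_one, Units.val_one]
    exact norm_one
  nlinarith [detNorm_pos v k]

lemma locHt_mul_of_mem_UZ (v : HS) (r : Fin 2 → F) {N : ℕ} {u : GF F} (hu : u ∈ UZ F N) (g : GF F) :
    locHt v r (g * u) = locHt v r g := by
  obtain ⟨k, hk, c, rfl⟩ := Red.mem_UZ.1 hu
  have hk1 := Red.inLevel_one_of_inLevel hk
  have h1 : rowNorm v r (g * k) = rowNorm v r g := by
    refine le_antisymm ((rowNorm_mul_le v r g k).trans (mul_le_of_le_one_right (vMax_nonneg _)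
      (mMax_loc_le_one hk1 v))) ?_
    calc rowNorm v r g = rowNorm v r (g * k * k⁻¹) := by rw [mul_inv_cancel_right]
      _ ≤ _ := (rowNorm_mul_le v r (g * k) k⁻¹).trans (mul_le_of_le_one_right (vMax_nonneg _)
        (mMax_loc_le_one (Red.InLevel.inv hk1) v))
  have h2 : ∀ h : GF F, rowNorm v r (h * scalarGF c) = ‖(c : Af F) v‖ * rowNorm v r h := fun h => by
    rw [← Red.scalarGF_comm, rowNorm, rowNorm, Units.val_mul, Red.loc_mul,
      show Red.loc v ((scalarGF c : GF F) : M2) = (c : Af F) v • 1 from Matrix.ext fun i j => by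
        rcases eq_or_ne i j with rfl | hij
        · simp [Red.loc, scalarGF]
        · simp [Red.loc, scalarGF, hij, show (0 : Af F) v = 0 from rfl],
      Matrix.smul_mul, Matrix.one_mul, Matrix.vecMul_smul, vMax, vMax, Pi.smul_apply, Pi.smul_apply,
      smul_eq_mul, smul_eq_mul, norm_mul, norm_mul, mul_max_of_nonneg _ _ (norm_nonneg _)]
  have h3 : detNorm v (scalarGF c) = ‖(c : Af F) v‖ ^ 2 := by
    rw [detNorm_eq_det, Matrix.det_fin_two, sq, ← norm_mul]
    simp [Red.loc, scalarGF, show (0 : Af F) v = 0 from rfl]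
  rw [← mul_assoc, locHt, locHt, h2, h1, detNorm_mul, detNorm_mul, detNorm_eq_one hk1, h3, mul_one,
    mul_pow, mul_comm (‖(c : Af F) v‖ ^ 2) (rowNorm v r g ^ 2)]
  exact mul_div_mul_right _ _ (pow_ne_zero 2 (norm_ne_zero_iff.2 (Red.unit_apply_ne_zero c v)))

/-- The bound on the change of the local height. -/
def locBound (v : HS) (h : GF F) : ℝ := mMax (Red.loc v (h : M2)) ^ 2 / detNorm v h

lemma locHt_le_mul (v : HS) {r : Fin 2 → F} (hr : r ≠ 0) (g h : GF F) :
    locHt v r g ≤ locBound v h * locHt v r (g * h) := by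
  have hd := detNorm_pos v h
  have hg := rowNorm_pos v hr g
  have hgh := rowNorm_pos v hr (g * h)
  rw [locHt, locHt, locBound, detNorm_mul, div_mul_div_comm,
    div_le_div_iff₀ (pow_pos hg 2) (by positivity)]
  have := pow_le_pow_left₀ hgh.le (rowNorm_mul_le v r g h) 2
  nlinarith [mul_le_mul_of_nonneg_left this (mul_nonneg (detNorm_pos v g).le hd.le)]

lemma eventually_good (g : GF F) :
    ∀ᶠ v : HS in cofinite, detNorm v g = 1 ∧ mMax (Red.loc v (g : M2)) ≤ 1 ∧
      mMax (Red.loc v ((g⁻¹ : GF F) : M2)) ≤ 1 := by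
  have h : ∀ h : GF F, ∀ᶠ v : HS in cofinite, mMax (Red.loc v (h : M2)) ≤ 1 := fun h => by
    filter_upwards [eventually_norm_le_one ((h : M2) 0 0), eventually_norm_le_one ((h : M2) 0 1),
      eventually_norm_le_one ((h : M2) 1 0), eventually_norm_le_one ((h : M2) 1 1)] with v a b c d
    exact max_le (max_le a b) (max_le c d)
  filter_upwards [h g, h g⁻¹] with v h1 h2
  refine ⟨?_, h1, h2⟩
  have hle : ∀ k : GF F, mMax (Red.loc v (k : M2)) ≤ 1 → detNorm v k ≤ 1 := fun k hk => by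
    rw [detNorm_eq_det]
    exact (norm_det_le _).trans (mul_le_one₀ ((le_max_left _ _).trans hk) (vMax_nonneg _)
      ((le_max_right _ _).trans hk))
  refine le_antisymm (hle g h1) ?_
  have e : detNorm v g * detNorm v g⁻¹ = 1 := by
    rw [← detNorm_mul, mul_inv_cancel, detNorm, map_one, Units.val_one]
    exact norm_one
  nlinarith [hle g⁻¹ h2, detNorm_pos v g]

lemma eventually_vMax_rowAt {r : Fin 2 → F} (hr : r ≠ 0) :
    ∀ᶠ v : HS in cofinite, vMax (rowAt v r) = 1 := by
  obtain ⟨i, hi⟩ := Function.ne_iff.1 hr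
  filter_upwards [eventually_norm_le_one (algebraMap F (Af F) (r 0)),
    eventually_norm_le_one (algebraMap F (Af F) (r 1)), eventually_norm_eq_one hi] with v a b c
  exact le_antisymm (max_le a b) (c.ge.trans (norm_le_vMax (rowAt v r) i))

lemma eventually_locHt {r : Fin 2 → F} (hr : r ≠ 0) (g : GF F) :
    ∀ᶠ v : HS in cofinite, locHt v r g = 1 := by
  filter_upwards [eventually_good g, eventually_vMax_rowAt hr] with v h hv
  have h1 : rowNorm v r g = 1 := by
    refine le_antisymm ((vMax_vecMul_le _ _).trans (by rw [hv, one_mul]; exact h.2.1)) ?_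
    have := vMax_vecMul_le (rowAt v r ᵥ* Red.loc v (g : M2)) (Red.loc v ((g⁻¹ : GF F) : M2))
    rw [Matrix.vecMul_vecMul, loc_inv_mul, Matrix.vecMul_one, hv] at this
    exact this.trans (mul_le_of_le_one_right (vMax_nonneg _) h.2.2)
  rw [locHt, h.1, h1]; norm_num

lemma eventually_locBound_le_one (h : GF F) : ∀ᶠ v : HS in cofinite, locBound v h ≤ 1 := by
  filter_upwards [eventually_good h] with v hv
  rw [locBound, hv.1, div_one]
  exact pow_le_one₀ (mMax_nonneg _) hv.2.1

lemma locHt_mul_le {v : HS} {r r' : Fin 2 → F} (hr : r ≠ 0) (hr' : r' ≠ 0) (g : GF F) :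
    ‖(algebraMap F (Af F) (r 0 * r' 1 - r 1 * r' 0)) v‖ ^ 2 * (locHt v r g * locHt v r' g) ≤ 1 := by
  set A : Matrix (Fin 2) (Fin 2) (v.adicCompletion F) := Matrix.of ![rowAt v r, rowAt v r']
  have h := norm_det_le (A * Red.loc v (g : M2))
  rw [Matrix.det_mul, norm_mul, ← detNorm_eq_det,
    show ‖A.det‖ = ‖(algebraMap F (Af F) (r 0 * r' 1 - r 1 * r' 0)) v‖ by
      rw [Matrix.det_fin_two]; simp [A, rowAt]; rfl,
    show (A * Red.loc v (g : M2)) 0 = rowAt v r ᵥ* Red.loc v (g : M2) from rfl,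
    show (A * Red.loc v (g : M2)) 1 = rowAt v r' ᵥ* Red.loc v (g : M2) from rfl] at h
  have h' := pow_le_pow_left₀ (mul_nonneg (norm_nonneg _) (detNorm_pos v g).le) h 2
  rw [locHt, locHt, div_mul_div_comm, mul_div_assoc', div_le_one (mul_pos
    (pow_pos (rowNorm_pos v hr g) 2) (pow_pos (rowNorm_pos v hr' g) 2))]
  simp only [rowNorm] at *
  nlinarith

lemma locHt_afMap (τ : F →+* F) (v : HS) (r : Fin 2 → F) (g : GF F) :
    locHt v (fun i => τ (r i)) (gfMap τ g) = locHt (placeBelow τ v) r g := by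
  have e : ∀ j, ‖(rowAt v (fun i => τ (r i)) ᵥ* Red.loc v (gfMap τ g : M2)) j‖ =
      ‖(rowAt (placeBelow τ v) r ᵥ* Red.loc (placeBelow τ v) (g : M2)) j‖ := fun j => by
    have h1 : (rowAt v (fun i => τ (r i)) ᵥ* Red.loc v (gfMap τ g : M2)) j =
        afMap τ (∑ i, algebraMap F (Af F) (r i) * (g : M2) i j) v := by
      rw [Fin.sum_univ_two, map_add, map_mul, map_mul, afMap_algebraMap, afMap_algebraMap]
      simp only [Matrix.vecMul, dotProduct, Fin.sum_univ_two]
      rfl
    rw [h1, norm_afMap, Fin.sum_univ_two]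
    simp only [Matrix.vecMul, dotProduct, Fin.sum_univ_two]
    rfl
  rw [locHt, locHt, rowNorm, rowNorm, vMax, vMax, e 0, e 1]
  congr 1
  rw [detNorm, detNorm, ← norm_afMap]
  congr 2
  simp [gfMap, Matrix.det_fin_two]

/-! ### The form of a point at infinity -/

/-- The hermitian form of a point at a row. -/
def qf (a b : ℂ) (p : H3) : ℝ := Red.rowForm a b p / (p.2 : ℝ)

lemma qf_pos {a b : ℂ} (h : a ≠ 0 ∨ b ≠ 0) (p : H3) : 0 < qf a b p := by
  have ht : (0 : ℝ) < p.2 := p.2.2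
  refine div_pos ?_ ht
  rcases eq_or_ne a 0 with rfl | ha
  · simpa [Red.rowForm] using h
  · exact add_pos_of_nonneg_of_pos (Complex.normSq_nonneg _)
      (mul_pos (Complex.normSq_pos.2 ha) (pow_pos ht 2))

lemma coe_qf (x : Fin 2 → ℂ) (p : H3) :
    (qf (x 0) (x 1) p : ℂ) = (x ᵥ* Hyp.herm p) ⬝ᵥ (fun i => conj (x i)) := by
  have ht := Hyp.snd_ne_zero p
  simp [qf, Red.rowForm, Hyp.herm, Matrix.vecMul, dotProduct, Fin.sum_univ_two,
    Complex.normSq_eq_conj_mul_self]
  field_simp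
  ring

lemma qf_act (g : GL (Fin 2) ℂ) (x : Fin 2 → ℂ) (p : H3) :
    ‖(GeneralLinearGroup.det g : ℂ)‖ * qf (x 0) (x 1) (act g p) =
      qf ((x ᵥ* (g : Matrix (Fin 2) (Fin 2) ℂ)) 0) ((x ᵥ* (g : Matrix (Fin 2) (Fin 2) ℂ)) 1) p := by
  refine Complex.ofReal_injective ?_
  rw [Complex.ofReal_mul, coe_qf, coe_qf, ← smul_eq_mul, ← smul_dotProduct, ← Matrix.vecMul_smul,
    ← Hyp.mul_herm_mul, ← Matrix.vecMul_vecMul, ← Matrix.vecMul_vecMul, ← Matrix.dotProduct_mulVec]
  congr 1
  funext i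
  simp [Matrix.mulVec, Matrix.vecMul, dotProduct, Fin.sum_univ_two, mul_comm]

lemma qf_smul (c a b : ℂ) (p : H3) : qf (c * a) (c * b) p = Complex.normSq c * qf a b p := by
  simp only [qf, Red.rowForm, mul_assoc, ← mul_add, Complex.normSq_mul]
  ring

lemma qf_conj (a b : ℂ) (p : H3) : qf (conj a) (conj b) (conjH3 p) = qf a b p := by
  simp only [qf, Red.rowForm, conjH3, ← map_mul, ← map_add, Complex.normSq_conj]

/-- Two independent rows. -/
lemma sq_det_le_qf_mul (a b c d : ℂ) (p : H3) :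
    Complex.normSq (a * d - b * c) ≤ qf a b p * qf c d p := by
  have ht : (0 : ℝ) < p.2 := p.2.2
  rw [qf, qf, div_mul_div_comm, le_div_iff₀ (mul_pos ht ht)]
  have key : Red.rowForm a b p * Red.rowForm c d p - Complex.normSq (a * d - b * c) *
      ((p.2 : ℝ) * p.2) = Complex.normSq ((a * p.1 + b) * conj (c * p.1 + d) +
        (((p.2 : ℝ) ^ 2 : ℝ) : ℂ) * a * conj c) := by
    simp [Red.rowForm, Complex.normSq_apply, pow_two]
    ring
  nlinarith [Complex.normSq_nonneg ((a * p.1 + b) * conj (c * p.1 + d) +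
    (((p.2 : ℝ) ^ 2 : ℝ) : ℂ) * a * conj c)]

/-- Near points have comparable forms. -/
lemma qf_le_coshDist (a b : ℂ) (p p' : H3) : qf a b p' ≤ 2 * coshDist p p' * qf a b p := by
  have ht : (0 : ℝ) < p.2 := p.2.2
  have hs : (0 : ℝ) < p'.2 := p'.2.2
  set δ := p'.1 - p.1
  have key : 2 * coshDist p p' * qf a b p - qf a b p' =
      (Complex.normSq (conj δ * (a * p.1 + b) - a * (((p.2 : ℝ) ^ 2 : ℝ) : ℂ)) +
        Complex.normSq (a * p.1 + b) * (p'.2 : ℝ) ^ 2) / ((p.2 : ℝ) ^ 2 * p'.2) := by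
    simp only [qf, Red.rowForm, coshDist, δ]
    simp [Complex.normSq_apply, pow_two]
    field_simp
    ring
  have h0 : 0 ≤ 2 * coshDist p p' * qf a b p - qf a b p' := key ▸
    div_nonneg (add_nonneg (Complex.normSq_nonneg _)
      (mul_nonneg (Complex.normSq_nonneg _) (sq_nonneg _))) (mul_nonneg (sq_nonneg _) hs.le)
  linarith

end FLTAgent.LT.Ht
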